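import Fermat.Agent.Galois.Carayol36.Final
import Fermat.Agent.MLT.LevelBookkeeping
import Fermat.Agent.MLT.Tate.BaseChange
import Fermat.Agent.MLT.Tate.Unipotent
import Fermat.Prelude.Def_WeierstrassCurve_ConductorLevel

/-!
# Conductor and level of a semistable model from Carayol's lemma

A semistable model that is modular of some cube-free level is modular of its conductor level: at
a prime whose square exactly divides the level of the newform behind it, the attached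
representation would be unipotent on inertia, as the Tate module is.
-/

set_option autoImplicit false

noncomputable section

open Polynomial IsLocalRing

namespace FermatLib.Galois.Carayol58

open WeierstrassCurve

local notation "Qbar" => AlgebraicClosure ℚ
local notation "Γℚ" => (AlgebraicClosure ℚ ≃ₐ[ℚ] AlgebraicClosure ℚ)

/-- A character of a Hecke algebra with integral values on the generators has integral values. -/
theorem mem_range_intCast_of_generators {M : ℕ} [NeZero M] {S : Set ℕ}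
    (χ : ↥(CuspForm.heckeAlgebra M 2 S) →+* ℂ) (hMS : ∀ q : ℕ, q.Prime → q ∣ M → q ∈ S)
    (hT : ∀ (ℓ : ℕ) (hℓ : ℓ.Prime) (hℓM : ¬ ℓ ∣ M) (hℓS : ℓ ∉ S),
      χ (CuspForm.heckeAlgebra.T hℓ hℓM hℓS) ∈ (Int.castRingHom ℂ).range)
    (t : ↥(CuspForm.heckeAlgebra M 2 S)) : χ t ∈ (Int.castRingHom ℂ).range := by
  obtain ⟨t, ht⟩ := t
  induction ht using Algebra.adjoin_induction with
  | mem T hT' =>
    rcases hT' with ⟨ℓ, hℓ, hℓM, hℓS, rfl⟩ | ⟨r, hrM, hr, hrS, rfl⟩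
    · exact hT ℓ hℓ hℓM hℓS
    · exact absurd (hMS r hr hrM) hrS
  | algebraMap a =>
    exact ⟨a, ((RingHom.ext_int (χ.comp (algebraMap ℤ _)) (Int.castRingHom ℂ)) ▸ rfl :
      (Int.castRingHom ℂ) a = χ (algebraMap ℤ ↥(CuspForm.heckeAlgebra M 2 S) a))⟩
  | add a b ha hb iha ihb =>
    obtain ⟨m, hm⟩ := iha
    obtain ⟨n, hn⟩ := ihb
    refine ⟨m + n, ?_⟩
    rw [map_add, hm, hn, ← map_add]
    rfl
  | mul a b ha hb iha ihb =>
    obtain ⟨m, hm⟩ := iha
    obtain ⟨n, hn⟩ := ihb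
    refine ⟨m * n, ?_⟩
    rw [map_mul, hm, hn, ← map_mul]
    rfl

/-- No square of a prime exactly divides the level of a newform with the eigenvalues of a
semistable model. -/
theorem factorization_ne_two (hvan : Carayol36.VanishingAll) {W : WeierstrassCurve ℤ}
    (hΔ : W.Δ ≠ 0) (hss : W.IsSemistableModel) {M : ℕ} [NeZero M]
    {g : CuspForm (CongruenceSubgroup.Gamma0 M) 2} (hg : g.IsNewform) (S₀ : Finset ℕ)
    (h : ∀ ℓ : ℕ, ℓ.Prime → W.IsGoodPrimeFor ℓ → ¬ ℓ ∣ M → ℓ ∉ S₀ →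
      ModularFormClass.qCoeff g ℓ = (W.apOfModel ℓ : ℂ))
    {q : ℕ} (hq : q.Prime) : M.factorization q ≠ 2 := by
  intro hqM
  obtain ⟨lam, hlam, hlamp⟩ := Nat.exists_infinite_primes (q + 1)
  have hqlam : q ≠ lam := by omega
  have : Fact lam.Prime := ⟨hlamp⟩
  have : (W.map (Int.castRingHom ℚ)).IsElliptic :=
    ⟨by rw [WeierstrassCurve.map_Δ, isUnit_iff_ne_zero]; exact Int.cast_ne_zero.mpr hΔ⟩
  set S : Finset ℕ := insert lam (M.primeFactors ∪ S₀ ∪ W.Δ.natAbs.primeFactors) with hS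
  have hMS : ∀ r : ℕ, r.Prime → r ∣ M → r ∈ S := fun r hr hrM =>
    Finset.mem_insert_of_mem (Finset.mem_union_left _ (Finset.mem_union_left _
      (Nat.mem_primeFactors.mpr ⟨hr, hrM, NeZero.ne M⟩)))
  have hgood : ∀ ℓ : ℕ, ℓ.Prime → ℓ ∉ S → W.IsGoodPrimeFor ℓ := fun ℓ hℓ hℓS hd =>
    hℓS (Finset.mem_insert_of_mem (Finset.mem_union_right _
      (Nat.mem_primeFactors.mpr ⟨hℓ, Int.natCast_dvd.1 hd, Int.natAbs_ne_zero.mpr hΔ⟩)))
  have hqc : ∀ ℓ : ℕ, ℓ.Prime → ¬ ℓ ∣ M → ℓ ∉ S →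
      ModularFormClass.qCoeff g ℓ = (W.apOfModel ℓ : ℂ) := fun ℓ hℓ hℓM hℓS =>
    h ℓ hℓ (hgood ℓ hℓ hℓS) hℓM fun hd =>
      hℓS (Finset.mem_insert_of_mem (Finset.mem_union_left _ (Finset.mem_union_right _ hd)))
  have : Module.Finite ℤ ↥(CuspForm.heckeAlgebra M 2 (↑S : Set ℕ)) :=
    Modular.heckeAlgebra_moduleFinite M 2 _
  obtain ⟨ξ, -, hξT, -⟩ :=
    Galois.exists_eigenformCharacter (S := (↑S : Set ℕ)) hg.isNormalizedEigenform
  let chig : ↥(CuspForm.heckeAlgebra M 2 (↑S : Set ℕ)) →+* ℂ :=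
    (integralClosure ℤ ℂ).toSubring.subtype.comp ξ
  have hchig : ∀ (ℓ : ℕ) (hℓ : ℓ.Prime) (hℓM : ¬ ℓ ∣ M) (hℓS : ℓ ∉ (↑S : Set ℕ)),
      chig (CuspForm.heckeAlgebra.T hℓ hℓM hℓS) = ModularFormClass.qCoeff g ℓ := hξT
  have hint : ∀ t, chig t ∈ (Int.castRingHom ℂ).range :=
    mem_range_intCast_of_generators chig (fun r hr hrM => Finset.mem_coe.mpr (hMS r hr hrM))
      fun ℓ hℓ hℓM hℓS => ⟨W.apOfModel ℓ, by
        rw [hchig ℓ hℓ hℓM hℓS, hqc ℓ hℓ hℓM (by simpa using hℓS)]; rfl⟩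
  -- the character read in `ℤ`
  have hint' : ∀ x : chig.range, ∃ m : ℤ, (m : ℂ) = (x : ℂ) := fun x => by
    obtain ⟨t, ht⟩ := x.2
    obtain ⟨m, hm⟩ := hint t
    exact ⟨m, hm.trans ht⟩
  let e : ℤ ≃+* chig.range := RingEquiv.ofBijective (Int.castRingHom chig.range)
    ⟨fun a b hab => Int.cast_injective (α := ℂ)
        (by simpa using congrArg (Subtype.val : chig.range → ℂ) hab),
      fun x => (hint' x).imp fun m hm => Subtype.ext (by simpa using hm)⟩
  have hlamZ : (lam : ℤ_[lam]) ∈ maximalIdeal ℤ_[lam] := by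
    rw [PadicInt.maximalIdeal_eq_span_p]
    exact Ideal.mem_span_singleton_self _
  let iota : chig.range →+* ℤ_[lam] := (Int.castRingHom ℤ_[lam]).comp e.symm.toRingHom
  obtain ⟨O, _, _, _, _, _, _, _, _, hloc, -, ρ, hρ, hunip⟩ :=
    Carayol36.exists_rep_not_unipotent_of_vanishing hvan hg lam S ℤ_[lam] hlamZ chig hchig iota
      (Finset.mem_insert_self _ _) hMS
  set ρW := (MLT.Tate.curveTate (W.map (Int.castRingHom ℚ)) lam).baseChangeAlong
    (algebraMap ℤ_[lam] O) hloc with hρW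
  have hall : ∀ σ : Γℚ, LinearMap.charpoly (ρ.ρ σ) = LinearMap.charpoly (ρW.ρ σ) := by
    intro σ
    refine Galois.adic_charpoly_eq_of_frobenius ρ ρW S (fun ℓ hℓ hℓS A hA τ hτ => ?_) σ
    have hℓM : ¬ ℓ ∣ M := fun hd => hℓS (hMS ℓ hℓ hd)
    have hℓS' : ℓ ∉ (↑S : Set ℕ) := by simpa using hℓS
    have hℓlam : ℓ ≠ lam := fun he => hℓS (he ▸ Finset.mem_insert_self _ _)
    have hval : iota (chig.rangeRestrict (CuspForm.heckeAlgebra.T hℓ hℓM hℓS')) =
        ((W.apOfModel ℓ : ℤ) : ℤ_[lam]) := by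
      have he : chig.rangeRestrict (CuspForm.heckeAlgebra.T hℓ hℓM hℓS') = e (W.apOfModel ℓ) :=
        Subtype.ext (by
          show chig _ = _
          rw [hchig ℓ hℓ hℓM hℓS', hqc ℓ hℓ hℓM hℓS]
          simp [e])
      show (Int.castRingHom ℤ_[lam]) (e.symm _) = _
      rw [he, e.symm_apply_apply]
      rfl
    rw [hρ ℓ hℓ hℓM hℓS' A hA τ hτ, hρW, Carayol36.charpoly_baseChangeAlong,
      MLT.Tate.charpoly_curveTate_frobenius W lam hℓ hℓlam (hgood ℓ hℓ hℓS) hA hτ,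
      RingHom.comp_apply, hval]
    simp
  refine hunip q hq hqlam hqM fun A hA σ hσ => ?_
  rw [hall, hρW, Carayol36.charpoly_baseChangeAlong]
  by_cases hbad : (q : ℤ) ∣ W.Δ
  · rw [MLT.Tate.isUnipotentOnInertiaAt_curveTate W lam hq hqlam hbad (hss q hq hbad) A hA σ hσ]
    simp
  · rw [Galois.adic_charpoly_eq, MLT.Tate.isUnramifiedAt_curveTate W lam hq hqlam hbad A hA σ hσ,
      map_one]
    have htr : (MLT.Tate.curveTate (W.map (Int.castRingHom ℚ)) lam).trace σ = 2 := by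
      show LinearMap.trace _ _ _ = _
      rw [MLT.Tate.isUnramifiedAt_curveTate W lam hq hqlam hbad A hA σ hσ, LinearMap.trace_one,
        GaloisRepAdic.finrank_eq]
      norm_num
    rw [htr]
    simp [map_ofNat]
    ring

/-- A semistable model modular of a cube-free level is modular of its conductor level. -/
theorem isModularModelOfLevel_conductorLevel (hvan : Carayol36.VanishingAll)
    (hattach : Galois.PadicAttachment) (h35 : MLT.NewformFrobeniusAtBadPrime)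
    (W : WeierstrassCurve ℤ) (hss : W.IsSemistableModel) (N : ℕ)
    (hmod : W.IsModularModelOfLevel N) (hbad : ∀ ℓ : ℕ, ℓ.Prime → (ℓ : ℤ) ∣ W.Δ → ℓ ∣ N)
    (hN3 : ∀ q : ℕ, q.Prime → ¬ q ^ 3 ∣ N) :
    W.IsModularModelOfLevel W.conductorLevel := by
  have hN : N ≠ 0 := fun hN0 => hN3 2 Nat.prime_two (hN0 ▸ dvd_zero _)
  have hΔ : W.Δ ≠ 0 := by
    intro h0
    obtain ⟨q, hq, hqp⟩ := Nat.exists_infinite_primes (N + 1)
    have := Nat.le_of_dvd (Nat.pos_of_ne_zero hN) (hbad q hqp (h0 ▸ dvd_zero _))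
    omega
  obtain ⟨f, hf, hc⟩ := hmod
  obtain ⟨M, g, hMN, hg, hgc⟩ := Modular.exists_newform_of_eigenform hN hf
  have hM0 : M ≠ 0 := fun h0 => hN (by simpa [h0] using hMN)
  have : NeZero M := ⟨hM0⟩
  have hag : ∀ ℓ : ℕ, ℓ.Prime → W.IsGoodPrimeFor ℓ → ¬ ℓ ∣ M → ℓ ∉ N.primeFactors →
      ModularFormClass.qCoeff g ℓ = (W.apOfModel ℓ : ℂ) := fun ℓ hℓ hℓg _ hℓS => by
    have hℓN : ¬ ℓ ∣ N := fun hd => hℓS (Nat.mem_primeFactors.mpr ⟨hℓ, hd, hN⟩)
    rw [hgc ℓ hℓ hℓN, hc ℓ hℓ hℓg hℓN]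
  have hsq : Squarefree M := by
    rw [Nat.squarefree_iff_factorization_le_one hM0]
    intro q
    by_cases hq : q.Prime
    · have h3 : ¬ 3 ≤ M.factorization q := fun hle =>
        hN3 q hq (((hq.pow_dvd_iff_le_factorization hM0).mpr hle).trans hMN)
      have h2 := factorization_ne_two hvan hΔ hss hg N.primeFactors hag hq
      omega
    · rw [Nat.factorization_eq_zero_of_not_prime _ hq]
      exact Nat.zero_le _
  obtain ⟨N', hN', hN'sq, hN'bad, hN'mod⟩ := MLT.exactConductor_of_squarefree_level hattach h35 hΔ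
    hsq (MLT.isModularModelOfLevel_of_forall_notMem hattach hΔ hg.isNormalizedEigenform
      N.primeFactors hag)
  have heq : W.conductorLevel = N' := by
    rw [← Nat.prod_primeFactors_of_squarefree hN'sq,
      ← Nat.prod_primeFactors_of_squarefree W.squarefree_conductorLevel]
    refine Finset.prod_congr ?_ fun _ _ => rfl
    ext q
    simp only [Nat.mem_primeFactors]
    refine ⟨fun ⟨hq, hd, _⟩ => ⟨hq, ?_, hN'.ne'⟩,
      fun ⟨hq, hd, _⟩ => ⟨hq, ?_, W.conductorLevel_pos.ne'⟩⟩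
    · exact (hN'bad q hq).2 ((W.prime_dvd_conductorLevel_iff hΔ hq).1 hd)
    · exact (W.prime_dvd_conductorLevel_iff hΔ hq).2 ((hN'bad q hq).1 hd)
  rwa [heq]

end FermatLib.Galois.Carayol58
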